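import Fermat.Agent.S48.T18.B.Trans
import Fermat.Agent.S34.Mod.BC

set_option autoImplicit false

/-!
# T18 : algebraic (in)dependence of Laurent series and change of the field of constants

`t_b(q^e)` is algebraic over `K(j)` for every `K → ℚ̄`, because it is so over `ℚ̄` (`T24.degree_isAlgebraic`).
-/

noncomputable section

namespace Fermat.Agent.T24.T18

open Fermat.Agent.S18 Fermat.Agent.S24

open IntermediateField ModularCurve

/-- algebraically independent series stay so after an extension of the field of constants. -/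
theorem algInd_up {k K : Type*} [Field k] [Field K] (i : k →+* K) {σ : Type*} (v : σ → LaurentSeries k)
    (h : AlgebraicIndependent k v) : AlgebraicIndependent K (fun s => coeffMap i (v s)) := by
  classical
  rw [algebraicIndependent_iff] at h ⊢
  intro P hP
  by_contra hP0
  obtain ⟨d0, hd0⟩ := MvPolynomial.ne_zero_iff.1 hP0
  obtain ⟨ℓ, hℓ, hℓ1⟩ := Mod.exists_functional i (P.coeff d0) hd0
  have h1 : ∑ d ∈ P.support, HahnSeries.C (P.coeff d) * coeffMap i (∏ s ∈ d.support, v s ^ d s) = 0 := by
    rw [← hP, MvPolynomial.aeval_def, MvPolynomial.eval₂_eq]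
    refine Finset.sum_congr rfl fun d _ => ?_
    rw [algebraMap_laurentSeries_eq_single, map_prod]
    simp only [map_pow]
    rfl
  have h2 := Mod.sum_down i P.support (fun d => P.coeff d) (fun d => ∏ s ∈ d.support, v s ^ d s) h1 ℓ hℓ
  have h3 := h (∑ d ∈ P.support, MvPolynomial.monomial d (ℓ (P.coeff d))) (by
    rw [map_sum, ← h2]
    refine Finset.sum_congr rfl fun d _ => ?_
    rw [MvPolynomial.aeval_monomial, algebraMap_laurentSeries_eq_single]
    rfl)
  have h4 := congrArg (MvPolynomial.coeff d0) h3
  rw [MvPolynomial.coeff_sum, MvPolynomial.coeff_zero] at h4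
  simp only [MvPolynomial.coeff_monomial] at h4
  rw [Finset.sum_ite_eq' P.support d0, if_pos (MvPolynomial.mem_support_iff.2 hd0), hℓ1] at h4
  exact one_ne_zero h4

/-- the pair `(j, y)`. -/
def pr {A : Type*} (j y : A) : Option Unit → A := fun o => o.elim y (fun _ => j)

theorem comp_pr {A B : Type*} (f : A → B) (j y : A) : (fun o => f (pr j y o)) = pr (f j) (f y) := by
  funext o
  cases o <;> rfl

/-- `y` algebraic over `K(j)` ⟹ `(j, y)` is algebraically dependent. -/
theorem not_algInd_of_isAlgebraic {K E : Type*} [Field K] [Field E] [Algebra K E] (j y : E)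
    (h : IsAlgebraic K⟮j⟯ y) : ¬ AlgebraicIndependent K (pr j y) := by
  intro hi
  have h1 := (AlgebraicIndependent.option_iff (R := K) (x := fun _ : Unit => j) (a := y)).1 hi
  have h2 : Set.range (fun _ : Unit => j) = {j} := Set.range_const
  rw [h2, ← IntermediateField.transcendental_adjoin_iff] at h1
  exact h1.2 h

/-- `(j, y)` algebraically dependent, `j ∈ K(x)` transcendental ⟹ `y` is algebraic over `K(x)`. -/
theorem isAlgebraic_of_not_algInd {K E : Type*} [Field K] [Field E] [Algebra K E] (x j y : E)
    (hj : j ∈ K⟮x⟯) (hjt : Transcendental K j) (h : ¬ AlgebraicIndependent K (pr j y)) :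
    IsAlgebraic K⟮x⟯ y := by
  have h1 : ¬ Transcendental (Algebra.adjoin K (Set.range (fun _ : Unit => j))) y := fun ht =>
    h ((AlgebraicIndependent.option_iff (R := K) (x := fun _ : Unit => j) (a := y)).2
      ⟨algebraicIndependent_unique_type_iff.2 hjt, ht⟩)
  have h2 : IsAlgebraic (Algebra.adjoin K (Set.range (fun _ : Unit => j))) y := by
    by_contra hc
    exact h1 hc
  have hle : Algebra.adjoin K (Set.range (fun _ : Unit => j)) ≤ K⟮x⟯.toSubalgebra := by
    rw [Algebra.adjoin_le_iff]
    rintro _ ⟨_, rfl⟩
    exact hj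
  exact h2.ringHom_of_comp_eq (Subalgebra.inclusion hle).toRingHom (RingHom.id E)
    (Subalgebra.inclusion_injective hle) (by ext; rfl)

theorem transcendental_jqModC (K : Type*) [Field K] : Transcendental K (jqModC K) := by
  intro h
  obtain ⟨c, hc⟩ := S18.trans_const _ h
  have h2 := S18.KPack.order_jqModC K
  rw [← hc, algebraMap_laurentSeries_eq_single] at h2
  by_cases hc0 : c = 0
  · rw [hc0, HahnSeries.single_eq_zero, HahnSeries.order_zero] at h2
    omega
  · rw [HahnSeries.order_single hc0] at h2
    omega

/-- `(j, f)` is algebraically dependent over `K` for every `f ∈ F_K`. -/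
theorem not_algInd_FK {K : Type} [Field K] [Algebra ℚ K] (ι : K →+* Kb) (N : ℕ) [NeZero N] [Cond N]
    (f : modularFunctionFieldFullC K N) : ¬ AlgebraicIndependent K (pr (jqModC K) f.1) := by
  intro h
  have h1 := algInd_up ι _ h
  rw [comp_pr (coeffMap ι), coeffMap_jqModC] at h1
  have h2 := not_algInd_of_isAlgebraic (K := Kb) (jF N) (toFN ι N f)
    ((degree_isAlgebraic N).isAlgebraic _)
  apply h2
  rw [← AlgHom.algebraicIndependent_iff (modularFunctionFieldBar N).val Subtype.val_injective]
  have h3 : (modularFunctionFieldBar N).val ∘ pr (jF N) (toFN ι N f) =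
      pr (jqModC Kb) (coeffMap ι f.1) := by
    funext o
    cases o
    · rfl
    · exact degree_Jser_one
  rw [h3]
  exact h1

end Fermat.Agent.T24.T18
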