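import Fermat.Agent.S18.B.Fin
import Fermat.Agent.S48.T18.HSide
import Fermat.Agent.S48.T18.B.AlgDown

/-! # T18 (twin of S18) task B3 -/

set_option autoImplicit false

noncomputable section

namespace Fermat.Agent.T24.T18

open Fermat.Agent.S18 Fermat.Agent.S24

open Polynomial IntermediateField ModularCurve AlgebraicCurve

namespace Fin

theorem finite_divisorExpansionsC (K : Type*) [Field K] [Algebra ℚ K] (N : ℕ) [NeZero N] [Cond N] :
    (divisorExpansionsC K N).Finite := by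
  classical
  refine (S18.Fin.finite_divisorExpansionsC K N).union ?_
  let f : ℕ × ZMod (Cond.D N) → LaurentSeries K := fun d =>
    if h : d.1 = 0 then 0 else haveI : NeZero d.1 := ⟨h⟩; TserC K (Cond.D N) d.1 d.2
  apply (((N.divisors : Set ℕ) ×ˢ (Set.univ : Set (ZMod (Cond.D N)))).toFinite.image f).subset
  rintro _ ⟨e, he0, b, he, rfl⟩
  refine ⟨(e, b), ⟨by simp [NeZero.ne N, Dvd.dvd.trans (Dvd.intro _ rfl) he], Set.mem_univ _⟩, ?_⟩
  simp [f, NeZero.ne e]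

/-- the abstract form of B3. -/
theorem finiteDimensional_abstract {K E : Type*} [Field K] [Field E] [Algebra K E]
    (r : ℚ →+* E) (x j u : E) (Ap Bp : ℤ[X]) (hA : aeval x Ap ≠ 0)
    (hrel : aeval x Bp = aeval x Ap * j)
    (S : Set E) (hS : S.Finite)
    (hint : ∀ y ∈ S, IsIntegral K⟮x⟯ y)
    (p : ℕ) (hp : 0 < p) (hu : u ^ p ∈ Subfield.closure (Set.range (algebraMap K E) ∪ S))
    (hgen : Subfield.closure (Set.range (algebraMap K E) ∪ S ∪ {x, u}) = ⊤) :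
    FiniteDimensional K⟮x⟯ E := by
  classical
  have : CharZero E := charZero_of_injective_ringHom r.injective
  have : CharZero K := (algebraMap K E).charZero
  have hxk : x ∈ K⟮x⟯ := mem_adjoin_simple_self _ _
  have haev : ∀ P : ℤ[X], aeval x P ∈ K⟮x⟯ := by
    intro P
    have h2 := HSide.map_aeval_int (K⟮x⟯.val.toRingHom) ⟨x, hxk⟩ P
    have h3 : aeval x P = K⟮x⟯.val.toRingHom (aeval (⟨x, hxk⟩ : K⟮x⟯) P) := h2.symm
    rw [h3]
    exact (aeval (⟨x, hxk⟩ : K⟮x⟯) P).2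
  have hj : j ∈ K⟮x⟯ := by
    have h1 : j = aeval x Bp / aeval x Ap := by
      rw [hrel, mul_div_cancel_left₀ _ hA]
    rw [h1]
    exact div_mem (haev _) (haev _)
  have := hS.to_subtype
  have hfd0 : FiniteDimensional K⟮x⟯ (IntermediateField.adjoin K⟮x⟯ S) :=
    IntermediateField.finiteDimensional_adjoin hint
  have hle0 : Subfield.closure (Set.range (algebraMap K E) ∪ S) ≤
      (IntermediateField.adjoin K⟮x⟯ S).toSubfield := by
    rw [Subfield.closure_le]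
    rintro y (⟨a, rfl⟩ | hy)
    · exact (IntermediateField.adjoin K⟮x⟯ S).algebraMap_mem (algebraMap K K⟮x⟯ a)
    · exact IntermediateField.subset_adjoin _ _ hy
  have hup : IsIntegral K⟮x⟯ (u ^ p) := by
    have h1 : u ^ p ∈ IntermediateField.adjoin K⟮x⟯ S := hle0 hu
    have h2 : IsIntegral K⟮x⟯ (⟨u ^ p, h1⟩ : IntermediateField.adjoin K⟮x⟯ S) :=
      Algebra.IsIntegral.isIntegral _
    exact h2.map (IntermediateField.adjoin K⟮x⟯ S).val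
  have hui : IsIntegral K⟮x⟯ u := hup.of_pow hp
  have hS' : (S ∪ {u}).Finite := hS.union (Set.finite_singleton u)
  have := hS'.to_subtype
  have hfd : FiniteDimensional K⟮x⟯ (IntermediateField.adjoin K⟮x⟯ (S ∪ {u})) := by
    apply IntermediateField.finiteDimensional_adjoin
    rintro y (hy | hy)
    · exact hint y hy
    · rw [Set.mem_singleton_iff] at hy
      rw [hy]
      exact hui
  have htop : IntermediateField.adjoin K⟮x⟯ (S ∪ {u}) = ⊤ := by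
    rw [eq_top_iff]
    intro y _
    have hy : y ∈ Subfield.closure (Set.range (algebraMap K E) ∪ S ∪ {x, u}) := by
      rw [hgen]; trivial
    have hle : Subfield.closure (Set.range (algebraMap K E) ∪ S ∪ {x, u}) ≤
        (IntermediateField.adjoin K⟮x⟯ (S ∪ {u})).toSubfield := by
      rw [Subfield.closure_le]
      rintro y ((⟨a, rfl⟩ | hy) | hy | hy)
      · exact (IntermediateField.adjoin K⟮x⟯ (S ∪ {u})).algebraMap_mem (algebraMap K K⟮x⟯ a)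
      · exact IntermediateField.subset_adjoin _ _ (Or.inl hy)
      · rw [hy]
        exact (IntermediateField.adjoin K⟮x⟯ (S ∪ {u})).algebraMap_mem ⟨x, hxk⟩
      · exact IntermediateField.subset_adjoin _ _ (Or.inr hy)
    exact hle hy
  rw [htop] at hfd
  exact (IntermediateField.topEquiv (F := K⟮x⟯) (E := E)).toLinearEquiv.finiteDimensional

end Fin

namespace Ctx

variable {N : ℕ} [NeZero N] [Cond N] {ℓ p : ℕ} {A : ValuationSubring Kb} (𝒞 : Ctx N ℓ p A)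

/-- the generators `j_d` in `E`. -/
def finS : Set 𝒞.E := {y | (y : LaurentSeries 𝒞.K) ∈ divisorExpansionsC 𝒞.K N}

theorem fin_finite_finS : 𝒞.finS.Finite :=
  (Fin.finite_divisorExpansionsC 𝒞.K N).preimage Subtype.val_injective.injOn

theorem fin_incFE_mem (f : 𝒞.FK) :
    𝒞.incFE f ∈ Subfield.closure (Set.range (algebraMap 𝒞.K 𝒞.E) ∪ 𝒞.finS) := by
  have key : ∀ y : LaurentSeries 𝒞.K,
      y ∈ IntermediateField.adjoin 𝒞.K (divisorExpansionsC 𝒞.K N) →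
      ∃ g : 𝒞.E, (g : LaurentSeries 𝒞.K) = y ∧
        g ∈ Subfield.closure (Set.range (algebraMap 𝒞.K 𝒞.E) ∪ 𝒞.finS) := by
    intro y hy
    induction hy using IntermediateField.adjoin_induction with
    | mem y hy =>
      exact ⟨𝒞.incFE ⟨y, IntermediateField.subset_adjoin _ _ hy⟩, rfl,
          Subfield.subset_closure (Or.inr hy)⟩
    | algebraMap r =>
      exact ⟨algebraMap 𝒞.K 𝒞.E r, rfl, Subfield.subset_closure (Or.inl ⟨_, rfl⟩)⟩
    | add y z _ _ h1 h2 =>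
      obtain ⟨g1, rfl, h1⟩ := h1
      obtain ⟨g2, rfl, h2⟩ := h2
      exact ⟨g1 + g2, rfl, add_mem h1 h2⟩
    | inv y _ h1 =>
      obtain ⟨g1, rfl, h1⟩ := h1
      exact ⟨g1⁻¹, rfl, InvMemClass.inv_mem h1⟩
    | mul y z _ _ h1 h2 =>
      obtain ⟨g1, rfl, h1⟩ := h1
      obtain ⟨g2, rfl, h2⟩ := h2
      exact ⟨g1 * g2, rfl, mul_mem h1 h2⟩
  obtain ⟨g, hg, hmem⟩ := key f.1 f.2
  have : g = 𝒞.incFE f := Subtype.ext hg
  rwa [this] at hmem

theorem fin_x_ne_zero : 𝒞.x ≠ 0 := by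
  intro h
  have h1 : xK 𝒞.K 𝒞.Λ = 0 := congrArg Subtype.val h
  have h2 := order_xK 𝒞.K 𝒞.Λ
  rw [h1, HahnSeries.order_zero] at h2
  omega

theorem fin_aeval_Ap_ne_zero : aeval 𝒞.x 𝒞.Λ.Ap ≠ 0 := by
  rcases 𝒞.Λ_eq with hΛ | hΛ
  · rw [hΛ]
    simpa [line2] using 𝒞.fin_x_ne_zero
  · rw [hΛ]
    simpa [line3] using 𝒞.fin_x_ne_zero

theorem fin_jE_mem : 𝒞.incFE (HSide.jK0 𝒞.K N) ∈ 𝒞.K⟮𝒞.x⟯ := by
  have hxk : 𝒞.x ∈ 𝒞.K⟮𝒞.x⟯ := mem_adjoin_simple_self _ _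
  have haev : ∀ P : ℤ[X], aeval 𝒞.x P ∈ 𝒞.K⟮𝒞.x⟯ := by
    intro P
    have h2 := HSide.map_aeval_int (𝒞.K⟮𝒞.x⟯.val.toRingHom) ⟨𝒞.x, hxk⟩ P
    have h3 : aeval 𝒞.x P = 𝒞.K⟮𝒞.x⟯.val.toRingHom (aeval (⟨𝒞.x, hxk⟩ : 𝒞.K⟮𝒞.x⟯) P) := h2.symm
    rw [h3]
    exact (aeval (⟨𝒞.x, hxk⟩ : 𝒞.K⟮𝒞.x⟯) P).2
  have h1 : 𝒞.incFE (HSide.jK0 𝒞.K N) = aeval 𝒞.x 𝒞.Λ.Bp / aeval 𝒞.x 𝒞.Λ.Ap := by
    rw [𝒞.rel_E, mul_div_cancel_left₀ _ 𝒞.fin_aeval_Ap_ne_zero]
  rw [h1]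
  exact div_mem (haev _) (haev _)

theorem fin_int (y : 𝒞.E) (hy : y ∈ 𝒞.finS) : IsIntegral 𝒞.K⟮𝒞.x⟯ y := by
  apply IsAlgebraic.isIntegral
  refine isAlgebraic_of_not_algInd 𝒞.x (𝒞.incFE (HSide.jK0 𝒞.K N)) y 𝒞.fin_jE_mem ?_ ?_
  · intro h
    exact transcendental_jqModC 𝒞.K (h.algHom 𝒞.E.val)
  · intro h
    rw [← AlgHom.algebraicIndependent_iff 𝒞.E.val Subtype.val_injective] at h
    refine not_algInd_FK 𝒞.ι N ⟨y.1, IntermediateField.subset_adjoin _ _ hy⟩ ?_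
    have h3 : 𝒞.E.val ∘ pr (𝒞.incFE (HSide.jK0 𝒞.K N)) y = pr (jqModC 𝒞.K) y.1 := by
      funext o
      cases o <;> rfl
    rw [h3] at h
    exact h

/-- task B3. `E = K(x)(j_d, u)`, each generator is algebraic over `K(x)`: `j = B(x)/A(x) ∈ K(x)`
(`xK_rel`), `j_d` is algebraic over `K(j)` (modular polynomial; S24 `degree_isAlgebraic` gives it over
`ℚ̄`, S28 has the integral modular equation over `ℤ`), `u^p ∈ F_K`. -/
theorem finiteDimensional : FiniteDimensional 𝒞.K⟮𝒞.x⟯ 𝒞.E := by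
  refine Fin.finiteDimensional_abstract ((algebraMap 𝒞.K 𝒞.E).comp (algebraMap ℚ 𝒞.K)) 𝒞.x
    (𝒞.incFE (HSide.jK0 𝒞.K N)) 𝒞.uE 𝒞.Λ.Ap 𝒞.Λ.Bp 𝒞.fin_aeval_Ap_ne_zero 𝒞.rel_E 𝒞.finS
    𝒞.fin_finite_finS 𝒞.fin_int p 𝒞.hp.pos ?_ ?_
  · have h : 𝒞.uE ^ p = 𝒞.incFE (𝒞.a / 𝒞.b) := Subtype.ext 𝒞.hu
    rw [h]
    exact 𝒞.fin_incFE_mem _
  · rw [eq_top_iff, ← 𝒞.closure_eq_top, Subfield.closure_le]
    rintro y (⟨f, rfl⟩ | hy)
    · exact Subfield.closure_mono Set.subset_union_left (𝒞.fin_incFE_mem f)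
    · exact Subfield.subset_closure (Or.inr hy)

end Ctx

end Fermat.Agent.T24.T18
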