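import Fermat.Agent.S18.B.Trans
import Fermat.Agent.S48.T18.Ctx

/-! # T18 (twin of S18) tasks B2, B4 -/

set_option autoImplicit false

noncomputable section

namespace Fermat.Agent.T24.T18

open Fermat.Agent.S18 Fermat.Agent.S24

open Polynomial IntermediateField ModularCurve AlgebraicCurve

theorem trans_tower (K : Type*) [Field K] :
    @IsScalarTower K (PowerSeries K) (LaurentSeries K) _ _ Algebra.toSMul :=
  IsScalarTower.of_algebraMap_eq (R := K) (S := PowerSeries K) (A := LaurentSeries K) fun c => by
    rw [HahnSeries.algebraMap_apply']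
    rfl

/-- an element of `K((q))` algebraic over `K` is a power series. -/
theorem trans_exists_powerSeries {K : Type*} [Field K] (y : LaurentSeries K) (hy : IsAlgebraic K y) :
    ∃ w : PowerSeries K, algebraMap (PowerSeries K) (LaurentSeries K) w = y := by
  have := trans_tower K
  have h1 : IsIntegral K y := hy.isIntegral
  have h2 : IsIntegral (PowerSeries K) y := h1.tower_top
  exact IsIntegrallyClosed.isIntegral_iff.1 h2

/-- an element of `K((q))` algebraic over `K` is constant. -/
theorem trans_const {K : Type*} [Field K] (y : LaurentSeries K) (hy : IsAlgebraic K y) :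
    ∃ c : K, algebraMap K (LaurentSeries K) c = y := by
  have := trans_tower K
  obtain ⟨w, hw⟩ := trans_exists_powerSeries y hy
  refine ⟨PowerSeries.constantCoeff w, ?_⟩
  by_contra hne
  set c := PowerSeries.constantCoeff w with hc
  have hy1 : IsAlgebraic K (y - algebraMap K (LaurentSeries K) c) :=
    hy.sub (isAlgebraic_algebraMap c)
  have hne' : y - algebraMap K (LaurentSeries K) c ≠ 0 := fun h => hne (sub_eq_zero.1 h).symm
  obtain ⟨w', hw'⟩ := trans_exists_powerSeries _ hy1.inv
  have h3 : algebraMap (PowerSeries K) (LaurentSeries K) ((w - PowerSeries.C c) * w') = 1 := by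
    have h4 : algebraMap (PowerSeries K) (LaurentSeries K) (PowerSeries.C c) =
        algebraMap K (LaurentSeries K) c := by
      rw [IsScalarTower.algebraMap_apply K (PowerSeries K) (LaurentSeries K)]
      rfl
    rw [map_mul, map_sub, hw, hw', h4, mul_inv_cancel₀ hne']
  have h5 : (w - PowerSeries.C c) * w' = 1 := by
    apply IsFractionRing.injective (PowerSeries K) (LaurentSeries K)
    rw [h3, map_one]
  have h6 := congrArg PowerSeries.constantCoeff h5
  rw [map_mul, map_sub, PowerSeries.constantCoeff_C, ← hc, sub_self, zero_mul, map_one] at h6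
  exact zero_ne_one h6

namespace Ctx

variable {N : ℕ} [NeZero N] [Cond N] {ℓ p : ℕ} {A : ValuationSubring Kb} (𝒞 : Ctx N ℓ p A)

/-- task B4. an element of `K((q))` algebraic over `K` is constant. -/
theorem hconst : ∀ y : 𝒞.E, IsAlgebraic 𝒞.K y → y ∈ (algebraMap 𝒞.K 𝒞.E).range := by
  intro y hy
  have h1 : IsAlgebraic 𝒞.K (y : LaurentSeries 𝒞.K) := by
    have := hy.algebraMap (A := LaurentSeries 𝒞.K)
    exact this
  obtain ⟨c, hc⟩ := trans_const _ h1
  exact ⟨c, Subtype.ext hc⟩

/-- task B2. `x = q⁻¹ + ⋯` has order `-1`, so it is not constant. -/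
theorem x_transcendental : Transcendental 𝒞.K 𝒞.x := by
  intro h
  obtain ⟨c, hc⟩ := 𝒞.hconst _ h
  have h1 : algebraMap 𝒞.K (LaurentSeries 𝒞.K) c = xK 𝒞.K 𝒞.Λ := congrArg Subtype.val hc
  have h2 := order_xK 𝒞.K 𝒞.Λ
  rw [← h1, algebraMap_laurentSeries_eq_single] at h2
  by_cases hc0 : c = 0
  · rw [hc0, HahnSeries.single_eq_zero, HahnSeries.order_zero] at h2
    omega
  · rw [HahnSeries.order_single hc0] at h2
    omega

end Ctx

end Fermat.Agent.T24.T18
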